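import Fermat.Agent.S20FM.CuspCore
import Fermat.Agent.S20FM_helper57.Conj

/-!
# Growth of the inverse of the matrix of conjugates at `i∞` (FM4)
-/

set_option autoImplicit false
set_option linter.unusedSectionVars false

open UpperHalfPlane Complex Filter Topology Function ModularForm Asymptotics
open scoped Real MatrixGroups ModularForm Manifold
open Fermat.Agent.S23 Fermat.Agent.S20FM Fermat.Agent.S20FM_helper57

namespace Fermat.Agent.S20FM_helper61

variable {N : ℕ} [NeZero N] (B : FreeBasis (G0 N))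

/-- The conjugate at the coset `x` of the combination `∑ c i • b i`. -/
noncomputable def comb (c : Fin B.m → ℂ) (x : Q N) : ℍ → ℂ :=
  fun τ => ∑ i, c i * cjQ (B.d i) (B.b i) x τ

theorem comb_eq_sum (c : Fin B.m → ℂ) (x : Q N) :
    comb B c x = ∑ i, c i • cjQ (B.d i) (B.b i) x := by
  funext τ
  simp [comb, Finset.sum_apply]

theorem mdiff_comb (c : Fin B.m → ℂ) (x : Q N) : MDiff (comb B c x) := by
  rw [comb_eq_sum]
  exact MDifferentiable.sum fun i _ => (mdiff_cjQ (B.isMF i) x).const_smul (c i)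

theorem comb_vadd_nat (c : Fin B.m → ℂ) (x : Q N) (t : ℕ) (τ : ℍ) :
    comb B c x ((t : ℝ) +ᵥ τ) = comb B c ((ModularGroup.T ^ (t : ℤ))⁻¹ • x) τ := by
  unfold comb
  exact Finset.sum_congr rfl fun i _ => by rw [cjQ_vadd_nat (B.isMF i)]

theorem comb_vadd_N (c : Fin B.m → ℂ) (x : Q N) (τ : ℍ) :
    comb B c x ((N : ℝ) +ᵥ τ) = comb B c x τ := by
  unfold comb
  exact Finset.sum_congr rfl fun i _ => by rw [cjQ_vadd_N (B.isMF i)]

theorem isBoundedAtImInfty_comb (c : Fin B.m → ℂ) (x : Q N) :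
    IsBoundedAtImInfty (comb B c x) := by
  unfold IsBoundedAtImInfty BoundedAtFilter comb
  refine IsBigO.fun_sum fun i _ => ?_
  exact (isBoundedAtImInfty_cjQ (B.isMF i) x).const_mul_left (c i)

/-- The `n`-th Fourier coefficient in `q_N` of the conjugate at `x` of the `i`-th basis element. -/
noncomputable def coeffAt (x : Q N) (n : ℕ) (i : Fin B.m) : ℂ :=
  valueAtInfty (fourier N n (cjQ (B.d i) (B.b i) x))

theorem tendsto_fourier_cjQ (x : Q N) {n : ℕ} (hn : n < N) (i : Fin B.m) :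
    Tendsto (fourier N n (cjQ (B.d i) (B.b i) x)) atImInfty (𝓝 (coeffAt B x n i)) :=
  tendsto_fourier (NeZero.ne N) hn (mdiff_cjQ (B.isMF i) x) (cjQ_vadd_N (B.isMF i) x)
    (isBoundedAtImInfty_cjQ (B.isMF i) x)

theorem fourier_comb (c : Fin B.m → ℂ) (x : Q N) (n : ℕ) (τ : ℍ) :
    fourier N n (comb B c x) τ = ∑ i, c i * fourier N n (cjQ (B.d i) (B.b i) x) τ :=
  fourier_sum Finset.univ N n c (fun i => cjQ (B.d i) (B.b i) x) τ

theorem tendsto_fourier_comb (c : Fin B.m → ℂ) (x : Q N) {n : ℕ} (hn : n < N) :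
    Tendsto (fourier N n (comb B c x)) atImInfty (𝓝 (∑ i, c i * coeffAt B x n i)) := by
  have h1 : fourier N n (comb B c x) =
      fun τ => ∑ i, c i * fourier N n (cjQ (B.d i) (B.b i) x) τ := by
    funext τ
    exact fourier_comb B c x n τ
  rw [h1]
  exact tendsto_finsetSum _ fun i _ => (tendsto_fourier_cjQ B x hn i).const_mul (c i)

/-- If all the Fourier coefficients of index `< N` of all conjugates of the combination vanish,
the combination is trivial. -/
theorem eq_zero_of_coeffAt (hev : ∀ i, Even (B.d i)) (c : Fin B.m → ℂ)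
    (h : ∀ x : Q N, ∀ n < N, ∑ i, c i * coeffAt B x n i = 0) : c = 0 := by
  have hN : N ≠ 0 := NeZero.ne N
  refine B.eq_zero_of_isBigO_exp hev c fun γ => ?_
  have h1 : (fun τ => ∑ i, c i * (B.b i ∣[B.d i] γ) τ) = comb B c ((γ⁻¹ : SL(2, ℤ)) : Q N) := by
    funext τ
    unfold comb
    exact Finset.sum_congr rfl fun i _ => by rw [slash_eq_cjQ (B.isMF i) γ]
  rw [h1]
  set x : Q N := ((γ⁻¹ : SL(2, ℤ)) : Q N) with hx
  have h2 : comb B c x = fun τ => ∑ n ∈ Finset.range N, qN N τ ^ n * fourier N n (comb B c x) τ := by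
    funext τ
    exact (sum_qN_pow_mul_fourier hN (comb B c x) τ).symm
  rw [h2]
  refine IsBigO.fun_sum fun n hn => ?_
  have hn' : n < N := Finset.mem_range.mp hn
  have h3 : Tendsto (fourier N n (comb B c x)) atImInfty (𝓝 0) := by
    have := tendsto_fourier_comb B c x hn'
    rwa [h x n hn'] at this
  have h4 := fourier_isBigO_of_tendsto_zero hN hn' (mdiff_comb B c x) (comb_vadd_N B c x)
    (isBoundedAtImInfty_comb B c x) h3
  have h5 : (fun τ : ℍ => qN N τ ^ n) =O[atImInfty] (fun _ : ℍ => (1 : ℝ)) := by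
    refine IsBigO.of_bound 1 (Eventually.of_forall fun τ => ?_)
    rw [norm_pow, norm_one, mul_one]
    exact pow_le_one₀ (norm_nonneg _) (norm_qN_lt_one hN τ).le
  have h6 := h5.mul h4
  refine h6.trans (isBigO_of_le _ fun τ => ?_)
  simp

variable [Fintype (Q N)]

/-- The matrix of leading coefficients as a linear map. -/
noncomputable def Linf : (Fin B.m → ℂ) →ₗ[ℂ] (Q N × Fin N → ℂ) where
  toFun c := fun p => ∑ i, c i * coeffAt B p.1 p.2 i
  map_add' := by
    intro c c'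
    funext p
    simp [add_mul, Finset.sum_add_distrib]
  map_smul' := by
    intro a c
    funext p
    simp [Finset.mul_sum, mul_assoc]

theorem Linf_apply (c : Fin B.m → ℂ) (p : Q N × Fin N) :
    Linf B c p = ∑ i, c i * coeffAt B p.1 p.2 i := rfl

theorem ker_Linf (hev : ∀ i, Even (B.d i)) : LinearMap.ker (Linf B) = ⊥ := by
  rw [LinearMap.ker_eq_bot']
  intro c hc
  refine eq_zero_of_coeffAt B hev c fun x n hn => ?_
  have := congrFun hc (x, ⟨n, hn⟩)
  simpa [Linf_apply] using this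

theorem exists_lower_bound (hev : ∀ i, Even (B.d i)) :
    ∃ K : ℝ, 0 < K ∧ ∀ c : Fin B.m → ℂ, ‖c‖ ≤ K * ‖Linf B c‖ := by
  obtain ⟨K, hK, hanti⟩ := (Linf B).exists_antilipschitzWith (ker_Linf B hev)
  refine ⟨K, by exact_mod_cast hK, fun c => ?_⟩
  have := hanti.le_mul_dist c 0
  simpa using this

theorem norm_inv_qN_pow_le {n : ℕ} (hn : n < N) (τ : ℍ) :
    ‖qN N τ‖⁻¹ ^ n ≤ Real.exp (2 * π * τ.im * (1 - 1 / N)) := by
  have hN : N ≠ 0 := NeZero.ne N
  have hNR : (0 : ℝ) < N := by exact_mod_cast Nat.pos_of_ne_zero hN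
  have h1 : ‖qN N τ‖⁻¹ = Real.exp (2 * π * τ.im / N) := by
    rw [norm_qN, ← Real.exp_neg]
    congr 1
    ring
  rw [h1, ← Real.exp_nat_mul, Real.exp_le_exp]
  have h2 : (n : ℝ) ≤ N - 1 := by
    have : n + 1 ≤ N := hn
    have h3 : ((n + 1 : ℕ) : ℝ) ≤ N := by exact_mod_cast this
    push_cast at h3
    linarith
  have h3 : 0 ≤ 2 * π * τ.im / N := by
    have := τ.im_pos
    positivity
  calc (n : ℝ) * (2 * π * τ.im / N) ≤ (N - 1) * (2 * π * τ.im / N) :=
        mul_le_mul_of_nonneg_right h2 h3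
    _ = 2 * π * τ.im * (1 - 1 / N) := by
        field_simp

theorem norm_fourier_comb_le (c : Fin B.m → ℂ) (x : Q N) {n : ℕ} (hn : n < N) (τ : ℍ) :
    ‖fourier N n (comb B c x) τ‖ ≤
      Real.exp (2 * π * τ.im * (1 - 1 / N)) * ∑ y : Q N, ‖comb B c y τ‖ := by
  have hN : N ≠ 0 := NeZero.ne N
  have hS : 0 ≤ ∑ y : Q N, ‖comb B c y τ‖ := Finset.sum_nonneg fun _ _ => norm_nonneg _
  have h1 : ‖fourier N n (comb B c x) τ‖ ≤ ‖qN N τ‖⁻¹ ^ n * ∑ y : Q N, ‖comb B c y τ‖ := by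
    refine norm_fourier_le hN n (comb B c x) τ fun t _ => ?_
    rw [comb_vadd_nat]
    exact Finset.single_le_sum (f := fun y => ‖comb B c y τ‖) (fun _ _ => norm_nonneg _)
      (Finset.mem_univ _)
  exact h1.trans (mul_le_mul_of_nonneg_right (norm_inv_qN_pow_le hn τ) hS)

/-- Uniform convergence of the finitely many Fourier extractions to their limits. -/
theorem exists_im_bound {ε : ℝ} (hε : 0 < ε) :
    ∃ A : ℝ, ∀ τ : ℍ, A ≤ τ.im → ∀ (p : Q N × Fin N) (i : Fin B.m),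
      ‖fourier N p.2 (cjQ (B.d i) (B.b i) p.1) τ - coeffAt B p.1 p.2 i‖ ≤ ε := by
  have h1 : ∀ᶠ τ in atImInfty, ∀ (p : Q N × Fin N) (i : Fin B.m),
      ‖fourier N p.2 (cjQ (B.d i) (B.b i) p.1) τ - coeffAt B p.1 p.2 i‖ ≤ ε := by
    rw [Filter.eventually_all]
    intro p
    rw [Filter.eventually_all]
    intro i
    have h2 := tendsto_fourier_cjQ B p.1 p.2.2 i
    have h3 : Tendsto (fun τ => ‖fourier N p.2 (cjQ (B.d i) (B.b i) p.1) τ - coeffAt B p.1 p.2 i‖)
        atImInfty (𝓝 0) := by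
      have := (h2.sub_const (coeffAt B p.1 p.2 i)).norm
      simpa using this
    exact h3.eventually (ge_mem_nhds hε)
  obtain ⟨A, -, hA⟩ := atImInfty_basis.eventually_iff.mp h1
  exact ⟨A, fun τ hτ => hA hτ⟩

/-- **FM4 (growth).**  Near `i∞` the matrix of conjugates of a homogeneous basis is bounded below
by a constant times `|q|^((N-1)/N)`. -/
theorem growth (hev : ∀ i, Even (B.d i)) :
    ∃ A C : ℝ, 0 < C ∧ ∀ τ : ℍ, A ≤ τ.im → ∀ c : Fin B.m → ℂ,
      (∑ i, ‖c i‖) ≤ C * Real.exp (2 * π * τ.im * (1 - 1 / N)) *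
        ∑ x : Q N, ‖∑ i, c i * ((B.b i) ∣[B.d i] (Quotient.out x)⁻¹) τ‖ := by
  obtain ⟨K, hK, hlow⟩ := exists_lower_bound B hev
  set m : ℝ := (B.m : ℝ) with hm
  have hm0 : 0 ≤ m := Nat.cast_nonneg _
  set ε : ℝ := 1 / (2 * K * (m + 1)) with hεdef
  have hε : 0 < ε := by positivity
  obtain ⟨A, hA⟩ := exists_im_bound B hε
  refine ⟨A, 2 * K * m + 1, by positivity, fun τ hτ c => ?_⟩
  set E : ℝ := Real.exp (2 * π * τ.im * (1 - 1 / N)) with hE
  have hE0 : 0 < E := Real.exp_pos _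
  set S : ℝ := ∑ x : Q N, ‖comb B c x τ‖ with hS
  have hS0 : 0 ≤ S := Finset.sum_nonneg fun _ _ => norm_nonneg _
  have hSeq : ∑ x : Q N, ‖∑ i, c i * ((B.b i) ∣[B.d i] (Quotient.out x)⁻¹) τ‖ = S := rfl
  rw [hSeq]
  -- coordinates are bounded by the sup norm
  have hci : ∀ i, ‖c i‖ ≤ ‖c‖ := fun i => norm_le_pi_norm c i
  -- bound for `Linf`
  have hLinf : ‖Linf B c‖ ≤ E * S + m * ε * ‖c‖ := by
    rw [pi_norm_le_iff_of_nonneg (by positivity)]
    intro p
    have h1 : Linf B c p = fourier N p.2 (comb B c p.1) τ -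
        ∑ i, c i * (fourier N p.2 (cjQ (B.d i) (B.b i) p.1) τ - coeffAt B p.1 p.2 i) := by
      rw [Linf_apply, fourier_comb, ← Finset.sum_sub_distrib]
      refine Finset.sum_congr rfl fun i _ => ?_
      ring
    rw [h1]
    refine (norm_sub_le _ _).trans (add_le_add (norm_fourier_comb_le B c p.1 p.2.2 τ) ?_)
    refine (norm_sum_le _ _).trans ?_
    have h2 : ∀ i ∈ (Finset.univ : Finset (Fin B.m)),
        ‖c i * (fourier N p.2 (cjQ (B.d i) (B.b i) p.1) τ - coeffAt B p.1 p.2 i)‖ ≤ ε * ‖c‖ := by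
      intro i _
      rw [norm_mul, mul_comm]
      exact mul_le_mul (hA τ hτ p i) (hci i) (norm_nonneg _) hε.le
    refine (Finset.sum_le_sum h2).trans ?_
    rw [Finset.sum_const, Finset.card_univ, Fintype.card_fin, nsmul_eq_mul, hm]
    exact le_of_eq (by ring)
  have hc : ‖c‖ ≤ 2 * K * (E * S) := by
    have h1 := hlow c
    have h2 : K * ‖Linf B c‖ ≤ K * (E * S) + K * (m * ε * ‖c‖) := by
      rw [← mul_add]
      exact mul_le_mul_of_nonneg_left hLinf hK.le
    have h3 : K * (m * ε * ‖c‖) ≤ (1 / 2) * ‖c‖ := by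
      have h4 : K * (m * ε) ≤ 1 / 2 := by
        rw [hεdef]
        rw [show K * (m * (1 / (2 * K * (m + 1)))) = (K * m) / (2 * K * (m + 1)) by ring]
        rw [div_le_iff₀ (by positivity)]
        nlinarith
      calc K * (m * ε * ‖c‖) = K * (m * ε) * ‖c‖ := by ring
        _ ≤ (1 / 2) * ‖c‖ := mul_le_mul_of_nonneg_right h4 (norm_nonneg _)
    linarith
  have hsum : (∑ i, ‖c i‖) ≤ m * ‖c‖ := by
    refine (Finset.sum_le_sum fun i _ => hci i).trans ?_
    rw [Finset.sum_const, Finset.card_univ, Fintype.card_fin, nsmul_eq_mul]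
  have hES : 0 ≤ E * S := by positivity
  calc (∑ i, ‖c i‖) ≤ m * ‖c‖ := hsum
    _ ≤ m * (2 * K * (E * S)) := mul_le_mul_of_nonneg_left hc hm0
    _ = 2 * K * m * (E * S) := by ring
    _ ≤ (2 * K * m + 1) * (E * S) := by nlinarith
    _ = (2 * K * m + 1) * E * S := by ring

end Fermat.Agent.S20FM_helper61
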